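import Fermat.Agent.LT.LiftTheta.Unfold

/-!
# The character of the theta functions

The theta function of a periodic weight on `ℚ(ζ₃)` has character `χ₋₃` on `Γ₀(3 L²)`.
-/

set_option autoImplicit false

noncomputable section

open Matrix CongruenceSubgroup UpperHalfPlane
open scoped NumberField Classical MatrixGroups ModularForm

namespace Fermat.Agent.LT.LiftTheta

open LiftHecke
open LiftHecke.QuadFrame (zhatIncl)
open Lift (thetaFun sqrtIm)
open LatticeTheta (thetaCoset chiThree)

variable {L : ℕ} {hL : 0 < L}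
  (W : ThetaWeight eisFrame.toHermFrame (eisFrame.principalScale L hL))

/-- Integral weights periodic modulo the level and invariant under units of `ℤ̂`. -/
structure IsLevelWeight : Prop where
  bounded : ∃ B : ℝ, ∀ Y, ‖W.Φ Y‖ ≤ B
  integral : IsIntegralWeight W
  periodic : ∀ Y Z, IsHermInt Z → W.Φ (Y + (L : FinAdele EisField) • Z) = W.Φ Y
  scale : ∀ w : Zhat, IsUnit w → ∀ Y, W.Φ (zhatIncl (K := EisField) w • Y) = W.Φ Y

theorem isLevelWeight_stdWeight (hL : 0 < L) : IsLevelWeight (stdWeight L hL) where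
  bounded := ⟨1, fun Y => by rw [stdWeight_Φ]; exact norm_stdPhi_le Y⟩
  integral _ h := (inClass_of_stdPhi_ne_zero h).isHermInt.integral
  periodic Y Z hZ := stdPhi_add_period Y hZ
  scale _ hw _ := if_congr (inClass_zsmul_iff hw) rfl rfl

theorem isHermInt_arg_coordMat {k : GLFin EisField} (hk : Reduction.IntGL k) (n : Fin 4 → ℤ) :
    IsHermInt (ThetaWeight.arg k (coordMat n)) := by
  refine IsHermInt.hermAct hk.2 ⟨Matrix.ext fun i j => ?_, fun i j => ?_⟩
  · rw [adjMat_apply, Matrix.map_apply, Matrix.map_apply]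
    exact congrArg (finIncl EisField) (congrFun (congrFun (coordMat n).2 i) j)
  · exact Reduction.finIncl_mem_of_isIntegral (⟨_, isIntegral_coordMat n i j⟩ : 𝓞 EisField)

theorem arg_add_smul (k : GLFin EisField) {X Z W' : eisFrame.Herm} {a : ℤ}
    (h : X.1 = Z.1 + (a : EisField) • W'.1) :
    ThetaWeight.arg k X =
      ThetaWeight.arg k Z + (a : FinAdele EisField) • ThetaWeight.arg k W' := by
  have e : X.1.map (finIncl EisField) = Z.1.map (finIncl EisField) +
      (a : FinAdele EisField) • W'.1.map (finIncl EisField) := by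
    refine Matrix.ext fun i j => ?_
    rw [h, Matrix.map_apply, Matrix.add_apply, Matrix.smul_apply, smul_eq_mul, map_add, map_mul,
      map_intCast]
    rfl
  rw [ThetaWeight.arg, e]
  exact (hermAct_add _ _ _ _).trans (congrArg _ (hermAct_smul _ _ _ _))

theorem arg_zero_coord (k : GLFin EisField) :
    ThetaWeight.arg k (coordMat 0) = (0 : Matrix (Fin 2) (Fin 2) (FinAdele EisField)) := by
  have e : (coordMat 0).1.map (finIncl EisField) = 0 := by
    refine Matrix.ext fun i j => ?_
    fin_cases i <;> fin_cases j <;> simp [coordMat]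
  rw [ThetaWeight.arg, e, hermAct]
  simp

variable {W}

theorem coordFn_periodic (hW : IsLevelWeight W) {k : GLFin EisField} (hk : Reduction.IntGL k)
    (n m : Fin 4 → ℤ) : coordFn W k (n + (L : ℤ) • m) = coordFn W k n := by
  rw [coordFn, coordFn, arg_add_smul k (coordMat_add_smul n m L), Int.cast_natCast]
  exact hW.periodic _ _ (isHermInt_arg_coordMat hk m)

theorem coordFn_congr (hW : IsLevelWeight W) {k : GLFin EisField} (hk : Reduction.IntGL k)
    {n m : Fin 4 → ℤ} (h : ∀ i, (L : ℤ) ∣ m i - n i) : coordFn W k m = coordFn W k n := by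
  choose q hq using h
  rw [show m = n + (L : ℤ) • q from funext fun i => by
    simp only [Pi.add_apply, Pi.smul_apply, smul_eq_mul]; linear_combination hq i]
  exact coordFn_periodic hW hk n q

/-- A unit of `ℤ̂` congruent to an integer prime to `L`. -/
theorem exists_unit_congr {a : ℤ} (ha : IsCoprime a (L : ℤ)) :
    ∃ w t : Zhat, IsUnit w ∧ w = (a : Zhat) + (L : Zhat) * t := by
  have h : ∀ q : Nat.Primes, ∃ w t : ℤ_[(q : ℕ)], IsUnit w ∧ w = (a : ℤ_[(q : ℕ)]) + L * t := by
    intro q
    by_cases hq : (q : ℕ) ∣ L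
    · refine ⟨a, 0, ?_, by simp⟩
      rw [PadicInt.isUnit_iff]
      refine le_antisymm (PadicInt.norm_le_one _) (not_lt.mp fun hlt => ?_)
      rw [PadicInt.norm_int_lt_one_iff_dvd] at hlt
      obtain ⟨u, v, huv⟩ := ha
      have : ((q : ℕ) : ℤ) ∣ 1 :=
        huv ▸ dvd_add (hlt.mul_left u) ((Int.natCast_dvd_natCast.mpr hq).mul_left v)
      exact q.2.one_lt.ne' (Nat.dvd_one.mp (by exact_mod_cast this))
    · have hu : IsUnit (L : ℤ_[(q : ℕ)]) := by
        rw [PadicInt.isUnit_iff, PadicInt.norm_def, PadicInt.coe_natCast,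
          Padic.norm_natCast_eq_one_iff]
        exact q.2.coprime_iff_not_dvd.2 hq
      obtain ⟨c, hc⟩ := hu.exists_right_inv
      exact ⟨1, c * (1 - a), isUnit_one, by linear_combination ((a : ℤ_[(q : ℕ)]) - 1) * hc⟩
  choose w t hw ht using h
  exact ⟨w, t, Pi.isUnit_iff.2 hw, funext fun q => by simpa using ht q⟩

theorem coordFn_smul (hW : IsLevelWeight W) {k : GLFin EisField} (hk : Reduction.IntGL k)
    {a : ℤ} (ha : IsCoprime a (L : ℤ)) (n : Fin 4 → ℤ) :
    coordFn W k (a • n) = coordFn W k n := by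
  obtain ⟨w, t, hw, hwt⟩ := exists_unit_congr ha
  set A := ThetaWeight.arg k (coordMat n)
  have hA : IsHermInt A := isHermInt_arg_coordMat hk n
  have e1 : (coordMat (a • n)).1 = (coordMat 0).1 + (a : EisField) • (coordMat n).1 := by
    rw [coordMat_smul]
    refine Matrix.ext fun i j => ?_
    fin_cases i <;> fin_cases j <;> simp [coordMat]
  rw [coordFn, coordFn, arg_add_smul k e1, arg_zero_coord, zero_add, ← hW.scale w hw A,
    ← hW.periodic ((a : FinAdele EisField) • A) _ (hA.zsmul t)]
  congr 1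
  rw [hwt, map_add, map_mul, map_intCast, map_natCast, add_smul, smul_smul]

variable [NeZero L]

/-- Residues and multiples. -/
def residueEquiv (L : ℕ) [NeZero L] :
    (Fin 4 → ZMod L) × (Fin 4 → ℤ) ≃ (Fin 4 → ℤ) where
  toFun p i := ((p.1 i).val : ℤ) + (L : ℤ) * p.2 i
  invFun n := (fun i => (n i : ZMod L), fun i => n i / (L : ℤ))
  left_inv p := by
    refine Prod.ext (funext fun i => ?_) (funext fun i => ?_)
    · simp
    · have h1 : ((p.1 i).val : ℤ) / (L : ℤ) = 0 :=
        Int.ediv_eq_zero_of_lt (Int.natCast_nonneg _) (by exact_mod_cast ZMod.val_lt _)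
      show (((p.1 i).val : ℤ) + (L : ℤ) * p.2 i) / (L : ℤ) = p.2 i
      rw [Int.add_mul_ediv_left _ _ (Int.natCast_ne_zero.mpr (NeZero.ne L)), h1, zero_add]
  right_inv n := funext fun i => by
    show (((n i : ZMod L)).val : ℤ) + (L : ℤ) * (n i / (L : ℤ)) = n i
    rw [ZMod.val_intCast]
    exact Int.emod_add_mul_ediv _ _

/-- The residue as a vector. -/
def residueVec (h : Fin 4 → ZMod L) : Fin 4 → ℤ := fun i => ((h i).val : ℤ)

/-- An index is its residue plus a multiple of the level. -/
theorem residueEquiv_apply (p : (Fin 4 → ZMod L) × (Fin 4 → ℤ)) :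
    residueEquiv L p = residueVec p.1 + (L : ℤ) • p.2 := rfl

/-- **The theta sum as a combination of coset theta series.** -/
theorem sum_thetaCoset_eq (hW : IsLevelWeight W) (P : H3) {k : GLFin EisField}
    (hk : Reduction.IntGL k) (τ : ℍ) :
    sqrtIm τ * ∑' n : Fin 4 → ℤ, coordFn W k n *
        (LatticeTheta.hermLattice P).phi τ (LatticeTheta.intVec n) =
      ∑ h : Fin 4 → ZMod L, coordFn W k (residueVec h) * thetaCoset P L (residueVec h) τ := by
  set f : (Fin 4 → ℤ) → ℂ := fun n => coordFn W k n *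
    (LatticeTheta.hermLattice P).phi τ (LatticeTheta.intVec n)
  have hterm : ∀ h m, f (residueEquiv L (h, m)) = coordFn W k (residueVec h) *
      (LatticeTheta.expi (τ.re * LatticeTheta.nForm (LatticeTheta.hermMat
        (LatticeTheta.intVec (residueVec h + (L : ℤ) • m)))) *
      ((Real.exp (-2 * Real.pi * τ.im * LatticeTheta.majForm P (LatticeTheta.hermMat
        (LatticeTheta.intVec (residueVec h + (L : ℤ) • m)))) : ℝ) : ℂ)) := fun h m => by
    simp only [f, residueEquiv_apply, coordFn_periodic hW hk, LatticeTheta.hermLattice_phi]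
  have hs : ∀ h, Summable fun m => f (residueEquiv L (h, m)) := fun h => by
    simp only [hterm]
    exact (LatticeTheta.summable_thetaCoset P L (residueVec h) τ).mul_left _
  have hS : Summable fun p => f (residueEquiv L p) :=
    Summable.of_norm ((summable_prod_of_nonneg fun _ => norm_nonneg _).2
      ⟨fun h => (hs h).norm, Summable.of_finite⟩)
  show _ * ∑' n, f n = _
  rw [← (residueEquiv L).tsum_eq f, hS.tsum_prod' hs, tsum_fintype, Finset.mul_sum]
  refine Finset.sum_congr rfl fun h _ => ?_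
  simp only [hterm, tsum_mul_left, thetaCoset, sqrtIm]
  exact mul_left_comm _ _ _

theorem chiThree_eq (d : ℤ) : chiThree ((d : ℤ) : ZMod 3) = (Final.chiInt d : ℂ) := by
  rw [Final.chiInt]
  generalize (d : ZMod 3) = z
  have hcases : z = 0 ∨ z = 1 ∨ z = -1 := by revert z; decide
  rcases hcases with rfl | rfl | rfl
  · rw [MulChar.map_zero]; simp [EisensteinWeightOne.chiNegThree]
  · rw [map_one]; simp [EisensteinWeightOne.chiNegThree, ZMod.val_one]
  · rw [LatticeTheta.chiThree_neg_one, show (-1 : ZMod 3).val = 2 from rfl]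
    simp [EisensteinWeightOne.chiNegThree]

/-- **The character on `Γ₀(3 L²)`.** -/
theorem thetaFun_slash_eq (hW : IsLevelWeight W) {γ : SL(2, ℤ)} (hγ : γ ∈ Gamma0 (3 * L ^ 2))
    (y : Y (Level.principal EisField L hL)) :
    thetaFun W y ∣[(1 : ℤ)] γ = (Final.chiInt (γ 1 1) : ℂ) • thetaFun W y := by
  have hc : 3 * (L : ℤ) ^ 2 ∣ γ 1 0 := by
    have h := Gamma0_mem.mp hγ
    rw [ZMod.intCast_zmod_eq_zero_iff_dvd] at h
    exact_mod_cast h
  have hdet : γ 0 0 * γ 1 1 - γ 0 1 * γ 1 0 = 1 := by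
    rw [← Matrix.det_fin_two]; exact γ.det_coe
  have hcop : IsCoprime (γ 0 0) (L : ℤ) := by
    obtain ⟨e, he⟩ := hc
    exact ⟨γ 1 1, -(γ 0 1 * (3 * L) * e), by rw [he] at hdet; linear_combination hdet⟩
  obtain ⟨P, k, hk, hy⟩ := exists_thetaFun_eq W hW.integral y
  have hy' : ∀ τ, thetaFun W y τ =
      ∑ h : Fin 4 → ZMod L, coordFn W k (residueVec h) * thetaCoset P L (residueVec h) τ :=
    fun τ => (hy τ).trans (sum_thetaCoset_eq hW P hk τ)
  funext τ
  have hj : UpperHalfPlane.denom (γ : GL (Fin 2) ℝ) τ ≠ 0 := UpperHalfPlane.denom_ne_zero _ _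
  rw [ModularForm.SL_slash_apply, Pi.smul_apply, smul_eq_mul, hy', hy',
    _root_.zpow_neg_one, Finset.sum_mul, Finset.mul_sum]
  obtain ⟨u, hu⟩ : IsUnit ((γ 0 0 : ℤ) : ZMod L) := by
    obtain ⟨x, z, hxz⟩ := hcop
    refine IsUnit.of_mul_eq_one (x : ZMod L) ?_
    have := congrArg (Int.cast : ℤ → ZMod L) hxz
    push_cast at this
    rw [ZMod.natCast_self, mul_zero, add_zero, mul_comm] at this
    exact this
  conv_rhs => rw [← (Equiv.piCongrRight fun _ : Fin 4 => Units.mulLeft u).sum_comp]
  refine Finset.sum_congr rfl fun h _ => ?_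
  set h' : Fin 4 → ZMod L := (Equiv.piCongrRight fun _ : Fin 4 => Units.mulLeft u) h
  have hcongr : ∀ i, (L : ℤ) ∣ residueVec h' i - (γ 0 0 • residueVec h) i := fun i => by
    refine (ZMod.intCast_zmod_eq_zero_iff_dvd _ L).mp ?_
    simp [residueVec, h', ← hu]
  rw [coordFn_congr hW hk hcongr, coordFn_smul hW hk hcop,
    LatticeTheta.thetaCoset_smul P L hc, LatticeTheta.thetaCoset_congr P L hcongr, chiThree_eq,
    ModularGroup.denom_apply]
  rw [ModularGroup.denom_apply] at hj
  field_simp

/-- **The character of the theta functions of the standard weight.** -/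
theorem chi_stdWeight (hL : 0 < L) : ∀ γ ∈ Gamma0 (3 * L ^ 2),
    ∀ y : Y (Level.principal EisField L hL),
      thetaFun (stdWeight L hL) y ∣[(1 : ℤ)] γ =
        (Final.chiInt (γ 1 1) : ℂ) • thetaFun (stdWeight L hL) y :=
  fun _ hγ y => thetaFun_slash_eq (isLevelWeight_stdWeight hL) hγ y

end Fermat.Agent.LT.LiftTheta

end
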