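import Fermat.Agent.LT.LiftTheta.Weil.Expansion
import Fermat.Agent.LT.Lift.FinalInputs

/-!
# The slash conditions of the standard weight

The slashed lift of the standard weight is nice: it expands in the theta terms of a box weight with
bounded denominators.
-/

set_option autoImplicit false

noncomputable section

open Matrix NumberField
open scoped NumberField MatrixGroups ModularForm Classical

namespace Fermat.Agent.LT.LiftTheta.Weil

open LiftHecke LatticeTheta

variable {K : Type*} [Field K] [NumberField K] {Fr : HermFrame K}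
  {U : Level K} {C : NormScale Fr U}

theorem inBox_of_boxWeight_ne [IsPrincipalIdealRing (𝓞 K)] (hC : IsUnitScale C) {D : ℕ}
    {Y : Matrix (Fin 2) (Fin 2) (FinAdele K)} (h : (boxWeight C hC D).Φ Y ≠ 0) : InBox D Y := by
  by_contra h'
  exact h (by unfold boxWeight; exact if_neg h')

theorem isBoundedWeight_boxWeight [IsPrincipalIdealRing (𝓞 K)] (hC : IsUnitScale C) {D : ℕ}
    (hD : 0 < D) : Lift.IsBoundedWeight (boxWeight C hC D) :=
  ⟨⟨1, fun Y => by unfold boxWeight; dsimp only; split <;> simp⟩, D, hD,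
    fun _ hY => inBox_of_boxWeight_ne hC hY⟩

/-- The norms on a box have a bounded denominator. -/
theorem hasSupportDenominator_boxWeight [IsPrincipalIdealRing (𝓞 K)] (hC : IsUnitScale C)
    (B : EisBasis Fr) {D : ℕ} (hD : 0 < D) :
    Lift.HasSupportDenominator (boxWeight C hC D) (D ^ 2) := by
  refine ⟨pow_pos hD 2, fun g X hX => ?_⟩
  obtain ⟨γ, k, hk, rfl⟩ := exists_glIncl_mul_intGL g
  obtain ⟨X₀, rfl⟩ := (Fr.hermEquiv γ).surjective X
  obtain ⟨q, rfl⟩ := B.exists_coordHerm X₀
  rw [Lift.arg_hermEquiv] at hX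
  choose n hn using fun i => B.isInt_of_inBox hk (inBox_of_boxWeight_ne hC hX) i
  refine ⟨n 2 ^ 2 - n 2 * n 3 + n 3 ^ 2 - n 0 * n 1, ?_⟩
  rw [← Lift.nForm_pullMat (Matrix.GeneralLinearGroup.map Fr.e γ), ThetaWeight.normVec_hermEquiv,
    hC k hk, B.normVec_coordHerm]
  show nForm _ = _
  rw [nForm_hermMat]
  have hDR : (D : ℝ) ≠ 0 := Nat.cast_ne_zero.2 hD.ne'
  have hn' : ∀ i, (q i : ℝ) = (n i : ℝ) / (D : ℝ) := fun i => by
    have h := congrArg (fun r : ℚ => (r : ℝ)) (hn i)
    push_cast at h
    field_simp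
    linarith
  simp only [hn']
  push_cast
  field_simp

end Fermat.Agent.LT.LiftTheta.Weil

namespace Fermat.Agent.LT.Lift

open LiftHecke

local notation "Af" => FinAdele EisField

theorem isUnitScale_eis {L : ℕ} (hL : 0 < L) :
    LiftTheta.Weil.IsUnitScale (eisFrame.principalScale L hL) := fun k hk => by
  rw [QuadFrame.scale_apply]
  refine eisFrame.idNorm_eq_one (LiftTheta.Weil.det_mem_integral hk.1) ?_
  rw [← map_inv]
  exact LiftTheta.Weil.det_mem_integral hk.2

theorem isHermInt_arg {k : GLFin EisField} {X : eisFrame.toHermFrame.Herm}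
    (h : ∀ i j, ThetaWeight.arg (Fr := eisFrame.toHermFrame) k X i j ∈ integralAdele EisField) :
    IsHermInt (ThetaWeight.arg (Fr := eisFrame.toHermFrame) k X) := by
  refine ⟨(adjMat_hermAct _ adConj_adConj _ _).trans (congrArg _ ?_), h⟩
  refine Matrix.ext fun i j => ?_
  rw [adjMat_apply, Matrix.map_apply, Matrix.map_apply, adConj_finIncl]
  exact congrArg (finIncl EisField) (congrFun (congrFun X.2 i) j)

theorem weilLevelWeight_stdWeight {L : ℕ} (hL : 0 < L) :
    LiftTheta.Weil.IsLevelWeight (stdWeight L hL) L where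
  bounded := ⟨1, fun Y => by rw [stdWeight_Φ]; exact norm_stdPhi_le Y⟩
  support _ h := (inClass_of_stdPhi_ne_zero h).isHermInt.integral
  periodic Y k X _ hX := stdPhi_add_period Y (isHermInt_arg hX)
  scale a k X ha _ hX := by
    obtain ⟨w, t, hw, hwt⟩ := LiftTheta.exists_unit_congr (L := L) ha
    set A := ThetaWeight.arg (Fr := eisFrame.toHermFrame) k X
    have hW := LiftTheta.isLevelWeight_stdWeight hL
    rw [← hW.scale w hw A, ← hW.periodic ((a : Af) • A) _ ((isHermInt_arg hX).zsmul t)]
    congr 1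
    rw [hwt, map_add, map_mul, map_intCast, map_natCast, add_smul, smul_smul]

/-- **The slash conditions of the standard weight.** -/
theorem stdNice : StdNice := by
  intro L hL _ π φ hπ hφ δ
  have : NeZero L := ⟨hL.ne'⟩
  have : IsPrincipalIdealRing (𝓞 EisField) := IsCyclotomicExtension.Rat.three_pid EisField
  set B := LiftTheta.Weil.eisBasisEisField eisFrame.toHermFrame
  have hC := isUnitScale_eis hL
  have hbd := LiftTheta.Weil.isBoundedWeight_boxWeight hC (D := 3 * L) (by positivity)
  exact isNice_of_expansion (adelicInput_eis hπ hφ)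
    ⟨hπ.thetaBound hbd, hπ.nullBound hbd hφ, _,
      LiftTheta.Weil.hasSupportDenominator_boxWeight hC B (by positivity)⟩ δ
    (LiftTheta.Weil.hasExpansion_slash B hC (weilLevelWeight_stdWeight hL) δ)

end Fermat.Agent.LT.Lift

end
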