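import Fermat.Agent.LT.Lift.EisForms
import Fermat.Agent.LT.Lift.FormPackage
import Fermat.Agent.LT.LatticeTheta.Coset

/-!
# The theta function in coordinates

The theta function of a weight on `ℚ(ζ₃)` at an integral coset is a theta series over `ℤ⁴`.
-/

set_option autoImplicit false

noncomputable section

open Matrix
open scoped NumberField Classical ComplexOrder
open NumberField (InfinitePlace)

namespace Fermat.Agent.LT.LiftTheta

open LiftHecke
open Lift (mTrace nForm thetaTerm thetaY thetaFun sqrtIm eisInt isIntegral_eisInt)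

section Generic

variable {K : Type*} [Field K] [NumberField K] {Fr : HermFrame K} {U : Level K}
  {C : NormScale Fr U} (W : ThetaWeight Fr C)

/-- The theta sum at a point and an adelic matrix. -/
def thetaSum (τ : ℂ) (P : H3) (g : GLFin K) : ℂ := ∑' X : Fr.Herm, thetaTerm W τ P g X

theorem thetaTerm_mul_level (τ : ℂ) (P : H3) (g : GLFin K) {u : GLFin K} (hu : u ∈ U.toSubgroup)
    {r : ℚ} (hr : 0 < r) (hcu : C.c u = r ^ 2) (X : Fr.Herm) :
    thetaTerm W τ P (g * u) X =
      thetaTerm W τ P g (Fr.ratEquiv r⁻¹ (inv_ne_zero hr.ne') X) := by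
  have h1 : Fr.normVec (C.c (g * u)) X =
      Fr.normVec (C.c g) (Fr.ratEquiv r⁻¹ (inv_ne_zero hr.ne') X) := by
    rw [map_mul, hcu, HermFrame.normVec_mul_sq _ _ _ hr]
  simp only [thetaTerm, h1, ThetaWeight.arg_mul, ThetaWeight.arg_ratEquiv, W.level u hu r hr hcu]

theorem thetaSum_mul_level (τ : ℂ) (P : H3) (g : GLFin K) {u : GLFin K}
    (hu : u ∈ U.toSubgroup) : thetaSum W τ P (g * u) = thetaSum W τ P g := by
  obtain ⟨r, hr, hcu⟩ := C.sq_rat u hu
  unfold thetaSum
  rw [tsum_congr (thetaTerm_mul_level W τ P g hu hr hcu)]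
  exact (Fr.ratEquiv r⁻¹ (inv_ne_zero hr.ne')).tsum_eq (thetaTerm W τ P g)

theorem thetaSum_congr (τ : ℂ) (P : H3) {g g' : GLFin K}
    (h : (QuotientGroup.mk g : GLFin K ⧸ U.toSubgroup) = QuotientGroup.mk g') :
    thetaSum W τ P g = thetaSum W τ P g' := by
  have e : g' = g * (g⁻¹ * g') := (mul_inv_cancel_left _ _).symm
  conv_rhs => rw [e]
  exact (thetaSum_mul_level W τ P g (QuotientGroup.eq.mp h)).symm

theorem thetaTerm_smul (τ : ℂ) (γ : GL (Fin 2) K) (P : H3) (g : GLFin K) (X : Fr.Herm) :
    thetaTerm W τ (Matrix.GeneralLinearGroup.map Fr.e γ • P) (glIncl K γ * g) (Fr.hermEquiv γ X) =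
      thetaTerm W τ P g X := by
  have harg : ThetaWeight.arg (Fr := Fr) (glIncl K γ * g) (Fr.hermEquiv γ X) =
      ThetaWeight.arg g X := by
    have hm : (Fr.hermEquiv γ X).1.map (finIncl K) =
        hermAct (finMap Fr.σ).toRingHom (glIncl K γ).val (X.1.map (finIncl K)) := by
      show (hermAct Fr.σ γ.val X.1).map (finIncl K) = _
      rw [hermAct, hermAct, Matrix.map_mul, Matrix.map_mul]
      rfl
    rw [ThetaWeight.arg, ThetaWeight.arg, hm, ← hermAct_mul, ← Units.val_mul]
    congr 2
    group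
  simp only [thetaTerm, harg, ← Lift.nForm_pullMat (Matrix.GeneralLinearGroup.map Fr.e γ)
    (Fr.normVec (C.c (glIncl K γ * g)) (Fr.hermEquiv γ X)),
    Lift.mTrace_smul (Matrix.GeneralLinearGroup.map Fr.e γ),
    ThetaWeight.normVec_hermEquiv (C := C) γ g X]

theorem thetaSum_smul (τ : ℂ) (γ : GL (Fin 2) K) (P : H3) (g : GLFin K) :
    thetaSum W τ (Matrix.GeneralLinearGroup.map Fr.e γ • P) (glIncl K γ * g) =
      thetaSum W τ P g := by
  unfold thetaSum
  rw [← (Fr.hermEquiv γ).tsum_eq]
  exact tsum_congr fun X => thetaTerm_smul W τ γ P g X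

theorem thetaY_mk [Unique (InfinitePlace K)] (τ : ℂ) (P : InfinitePlace K → H3) (g : GLFin K) :
    thetaY W τ ((P, (g : GLFin K ⧸ U.toSubgroup)) : Y U) = thetaSum W τ (P default) g :=
  thetaSum_congr W τ _ (QuotientGroup.out_eq' _)

end Generic

section Eisenstein

open Asai (eisZeta eisZeta_sq eisZeta_spec isIntegral_eisZeta)

theorem eisEmb_zeta_cases :
    eisEmb eisZeta = (⟨-1 / 2, √3 / 2⟩ : ℂ) ∨ eisEmb eisZeta = (⟨-1 / 2, -(√3 / 2)⟩ : ℂ) := by
  set w : ℂ := ⟨-1 / 2, √3 / 2⟩
  set w' : ℂ := ⟨-1 / 2, -(√3 / 2)⟩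
  have h3 : √3 * √3 = (3 : ℝ) := Real.mul_self_sqrt (by norm_num)
  have hsum : w + w' = -1 := by apply Complex.ext <;> simp [w, w']
  have hprod : w * w' = 1 := by
    apply Complex.ext <;> simp [w, w'] <;> linarith
  have hz := congrArg eisEmb eisZeta_sq
  simp only [map_add, map_pow, map_one, map_zero] at hz
  rcases mul_eq_zero.mp (show (eisEmb eisZeta - w) * (eisEmb eisZeta - w') = 0 by
    linear_combination hz - eisEmb eisZeta * hsum + hprod) with h | h
  · exact Or.inl (sub_eq_zero.mp h)
  · exact Or.inr (sub_eq_zero.mp h)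

/-- The cube root of unity going to `e(1/3)` under the distinguished embedding. -/
def eisOmega : EisField := if 0 < (eisEmb eisZeta).im then eisZeta else -1 - eisZeta

theorem eisEmb_omega : eisEmb eisOmega = (⟨-1 / 2, √3 / 2⟩ : ℂ) := by
  have h3 : (0 : ℝ) < √3 / 2 := by positivity
  rcases eisEmb_zeta_cases with h | h
  · rw [eisOmega, if_pos (by rw [h]; exact h3), h]
  · rw [eisOmega, if_neg (by rw [h]; simp [h3.le]), map_sub, map_neg, map_one, h]
    apply Complex.ext <;> simp
    norm_num

theorem isIntegral_eisOmega : IsIntegral ℤ eisOmega := by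
  unfold eisOmega
  split_ifs
  exacts [isIntegral_eisZeta, isIntegral_one.neg.sub isIntegral_eisZeta]

theorem eisConj_omega : eisConj eisOmega = -1 - eisOmega := by
  unfold eisOmega
  split_ifs <;> simp only [map_sub, map_neg, map_one, Lift.eisConj_zeta']

theorem exists_eq_add_mul_omega (o : 𝓞 EisField) :
    ∃ a b : ℤ, (o : EisField) = (a : EisField) + (b : EisField) * eisOmega := by
  obtain ⟨a, b, h⟩ := exists_eq_add_mul_zeta o
  unfold eisOmega
  split_ifs
  · exact ⟨a, b, h⟩
  · exact ⟨a - b, -b, by rw [h]; push_cast; ring⟩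

/-- The Hermitian matrix with coordinates `n`. -/
def coordMat (n : Fin 4 → ℤ) : eisFrame.Herm :=
  ⟨!![(n 0 : EisField), (n 2 : EisField) + (n 3 : EisField) * eisOmega;
      (n 2 : EisField) + (n 3 : EisField) * (-1 - eisOmega), (n 1 : EisField)], by
    ext i j
    fin_cases i <;> fin_cases j <;>
      simp [show eisFrame.toHermFrame.σ = eisConj from rfl, eisConj_omega]⟩

theorem map_coordMat (n : Fin 4 → ℤ) :
    (coordMat n).1.map eisEmb = LatticeTheta.hermMat (LatticeTheta.intVec n) := by
  refine Matrix.ext fun i j => ?_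
  fin_cases i <;> fin_cases j <;>
    simp [coordMat, LatticeTheta.hermMat, LatticeTheta.intVec, eisEmb_omega] <;>
    apply Complex.ext <;> simp <;> ring

theorem isIntegral_coordMat (n : Fin 4 → ℤ) (i j : Fin 2) : IsIntegral ℤ ((coordMat n).1 i j) := by
  have hi : ∀ m : ℤ, IsIntegral ℤ (m : EisField) := fun m => isIntegral_algebraMap (x := m)
  fin_cases i <;> fin_cases j
  · exact hi _
  · exact (hi _).add ((hi _).mul isIntegral_eisOmega)
  · exact (hi _).add ((hi _).mul (isIntegral_one.neg.sub isIntegral_eisOmega))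
  · exact hi _

theorem coordMat_injective : Function.Injective coordMat := fun n m h => by
  have e := congrArg (fun X : eisFrame.Herm => X.1.map eisEmb) h
  simp only [map_coordMat] at e
  have e00 := congrFun (congrFun e 0) 0
  have e11 := congrFun (congrFun e 1) 1
  have e01 := congrFun (congrFun e 0) 1
  simp [LatticeTheta.hermMat, LatticeTheta.intVec, Complex.ext_iff] at e00 e11 e01
  obtain ⟨hre, h3⟩ := e01
  have h2 : (n 2 : ℝ) = m 2 := by rw [show (n 3 : ℝ) = m 3 by exact_mod_cast h3] at hre; linarith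
  funext i
  fin_cases i
  · exact e00
  · exact e11
  · exact_mod_cast h2
  · exact h3

theorem exists_coordMat_eq (X : eisFrame.Herm) (h : ∀ i j, IsIntegral ℤ (X.1 i j)) :
    ∃ n, coordMat n = X := by
  have hσ : ∀ i j, eisConj (X.1 j i) = X.1 i j := fun i j => congrFun (congrFun X.2 i) j
  obtain ⟨a, ha⟩ := Lift.exists_int_of_fixed (h 0 0) (hσ 0 0)
  obtain ⟨d, hd⟩ := Lift.exists_int_of_fixed (h 1 1) (hσ 1 1)
  obtain ⟨u, v, hb⟩ := exists_eq_add_mul_omega ⟨X.1 0 1, h 0 1⟩
  change X.1 0 1 = _ at hb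
  refine ⟨![a, d, u, v], Subtype.ext (Matrix.ext fun i j => ?_)⟩
  fin_cases i <;> fin_cases j <;> simp [coordMat, ha, hd, hb]
  rw [← hσ 1 0, hb]
  simp [eisConj_omega]

theorem coordMat_add_smul (n m : Fin 4 → ℤ) (N : ℤ) :
    (coordMat (n + N • m)).1 = (coordMat n).1 + (N : EisField) • (coordMat m).1 := by
  refine Matrix.ext fun i j => ?_
  fin_cases i <;> fin_cases j <;> simp [coordMat] <;> ring

theorem coordMat_smul (n : Fin 4 → ℤ) (a : ℤ) :
    (coordMat (a • n)).1 = (a : EisField) • (coordMat n).1 := by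
  refine Matrix.ext fun i j => ?_
  fin_cases i <;> fin_cases j <;> simp [coordMat] <;> ring

variable {L : ℕ} {hL : 0 < L}
  (W : ThetaWeight eisFrame.toHermFrame (eisFrame.principalScale L hL))

/-- The principal scale is trivial on integral matrices. -/
theorem scale_intGL {k : GLFin EisField} (hk : Reduction.IntGL k) :
    (eisFrame.principalScale L hL).c k = 1 := by
  rw [QuadFrame.scale_apply]
  refine eisFrame.idNorm_eq_one (QuadFrame.det_mem_integralAdele hk.1) ?_
  rw [← map_inv]
  exact QuadFrame.det_mem_integralAdele hk.2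

theorem normVec_coordMat {k : GLFin EisField} (hk : Reduction.IntGL k) (n : Fin 4 → ℤ) :
    eisFrame.normVec ((eisFrame.principalScale L hL).c k) (coordMat n) =
      LatticeTheta.hermMat (LatticeTheta.intVec n) := by
  rw [scale_intGL hk, HermFrame.normVec, show eisFrame.toHermFrame.e = eisEmb from rfl,
    map_coordMat]
  simp

theorem majForm_eq (P : H3) (X : Matrix (Fin 2) (Fin 2) ℂ) (hX : X.IsHermitian) :
    LatticeTheta.majForm P X = nForm X + 2 * mTrace X P ^ 2 := by
  rw [LatticeTheta.majForm, nForm, mTrace]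
  set M := P.mat⁻¹ * X
  have htr : M.trace.im = 0 := by
    have h : (P.mat⁻¹).IsHermitian := P.posDef.isHermitian.inv
    have : star M.trace = M.trace := by
      rw [← Matrix.trace_conjTranspose, Matrix.conjTranspose_mul, hX.eq, h.eq,
        Matrix.trace_mul_comm]
    exact Complex.conj_eq_iff_im.mp this
  have hdet : M.det = X.det := by
    rw [Matrix.det_mul, Matrix.det_nonsing_inv, P.det_eq, Ring.inverse_one, one_mul]
  have key : (M * M).trace = M.trace ^ 2 - 2 * M.det := by
    simp [Matrix.trace_fin_two, Matrix.det_fin_two, Matrix.mul_apply, Fin.sum_univ_two]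
    ring
  rw [key, hdet]
  simp [pow_two, htr]
  ring

/-- The values of a weight at an integral coset, on coordinates. -/
def coordFn (k : GLFin EisField) (n : Fin 4 → ℤ) : ℂ :=
  W.Φ (ThetaWeight.arg k (coordMat n))

theorem thetaTerm_coordMat (P : H3) {k : GLFin EisField} (hk : Reduction.IntGL k)
    (τ : UpperHalfPlane) (n : Fin 4 → ℤ) :
    thetaTerm W τ P k (coordMat n) =
      coordFn W k n * (LatticeTheta.hermLattice P).phi τ (LatticeTheta.intVec n) := by
  have hherm : (LatticeTheta.hermMat (LatticeTheta.intVec n)).IsHermitian := by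
    rw [← normVec_coordMat (L := L) (hL := hL) hk n]
    exact eisFrame.toHermFrame.isHermitian_normVec _ _
  rw [thetaTerm, normVec_coordMat hk, coordFn, mul_comm, LatticeTheta.hermLattice_phi,
    majForm_eq P _ hherm, LatticeTheta.expi, Complex.ofReal_exp, ← Complex.exp_add]
  congr 2
  rw [show LatticeTheta.nForm = nForm from rfl]
  simp
  ring

/-- Integral weights. -/
def IsIntegralWeight : Prop :=
  ∀ Y, W.Φ Y ≠ 0 → ∀ i j, Y i j ∈ integralAdele EisField

theorem isIntegral_of_arg {k : GLFin EisField} (hk : Reduction.IntGL k) {X : eisFrame.Herm}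
    (h : ∀ i j, ThetaWeight.arg k X i j ∈ integralAdele EisField) (i j : Fin 2) :
    IsIntegral ℤ (X.1 i j) := by
  have hback : hermAct adConj k.val (ThetaWeight.arg k X) = X.1.map (finIncl EisField) := by
    rw [ThetaWeight.arg, ← hermAct_mul, ← Units.val_mul, mul_inv_cancel, Units.val_one]
    exact hermAct_one _ _
  have hm : X.1.map (finIncl EisField) i j ∈ integralAdele EisField := by
    rw [← hback]
    exact mul_entries_mem (mul_entries_mem hk.1 h) (adjMat_entries_mem hk.1) i j
  obtain ⟨o, ho⟩ := Reduction.exists_integer_of_finIncl_mem hm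
  rw [← ho]
  exact o.isIntegral_coe

/-- **The theta sum at an integral coset.** -/
theorem thetaSum_intGL (hW : IsIntegralWeight W) (P : H3) {k : GLFin EisField}
    (hk : Reduction.IntGL k) (τ : UpperHalfPlane) :
    thetaSum W τ P k =
      ∑' n : Fin 4 → ℤ, coordFn W k n *
        (LatticeTheta.hermLattice P).phi τ (LatticeTheta.intVec n) := by
  unfold thetaSum
  rw [← tsum_congr (thetaTerm_coordMat W P hk τ)]
  refine (coordMat_injective.tsum_eq fun X hX => ?_).symm
  have hne : W.Φ (ThetaWeight.arg k X) ≠ 0 := fun h0 => hX (by simp [thetaTerm, h0])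
  exact exists_coordMat_eq X (isIntegral_of_arg hk (hW _ hne))

/-- **The theta function in class one coordinates.** -/
theorem exists_thetaFun_eq (hW : IsIntegralWeight W) (y : Y (Level.principal EisField L hL)) :
    ∃ (P : H3) (k : GLFin EisField), Reduction.IntGL k ∧ ∀ τ : UpperHalfPlane,
      thetaFun W y τ = sqrtIm τ * ∑' n : Fin 4 → ℤ, coordFn W k n *
        (LatticeTheta.hermLattice P).phi τ (LatticeTheta.intVec n) := by
  obtain ⟨P, c⟩ := y
  induction c using QuotientGroup.induction_on with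
  | _ g =>
    obtain ⟨γ, k, hk, rfl⟩ := Lift.exists_glIncl_mul_intGL g
    refine ⟨(Matrix.GeneralLinearGroup.map eisFrame.toHermFrame.e γ)⁻¹ • P default, k, hk,
      fun τ => ?_⟩
    rw [thetaFun, thetaY_mk W (τ : ℂ) P, ← thetaSum_intGL W hW _ hk τ,
      ← thetaSum_smul W (τ : ℂ) γ _ k, smul_inv_smul]

end Eisenstein

end Fermat.Agent.LT.LiftTheta

end
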